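import Mathlib
import Fermat.Prelude.Def_ModularCurve_X0ModL

/-!
# GATE-J / J3-a: Frobenius and Kronecker congruences for `q`-series

* `pow_char_eq_qExpand`: in characteristic `ℓ`, `f ^ ℓ = qExpand ℓ (coeffMap Frobenius f)` for every
  Laurent series `f`.
* `qExpand_jqModC_char`: `j(q^ℓ) = j(q)^ℓ` in characteristic `ℓ`.
* `modularFunctionFieldFullC_mul_char`: in characteristic `ℓ` the level `N * ℓ` field (at the cusp
  `∞`) equals the level `N` field, and `qExpand ℓ` maps it into itself.
* `twist`: the substitution `t ↦ u t` on Laurent series, and the congruence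
  `∏_{i<ℓ} y(ζ^i t) ≡ y(t)^ℓ` modulo any ring homomorphism killing `ζ - 1`.
Owner: helper29.
-/

set_option autoImplicit false

open HahnSeries ModularCurve

namespace Fermat.Agent.GJ.J3.QS

section Basic

variable {R : Type*} [CommRing R]

theorem qExpand_ofPowerSeries (n : ℕ) [NeZero n] (p : PowerSeries R) :
    qExpand R n (HahnSeries.ofPowerSeries ℤ R p) =
      HahnSeries.ofPowerSeries ℤ R (p.expand n (NeZero.ne n)) := by
  ext k
  by_cases hk : (n : ℤ) ∣ k
  · obtain ⟨m, rfl⟩ := hk
    rw [qExpand_coeff_mul]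
    rcases le_or_gt 0 m with hm | hm
    · lift m to ℕ using hm
      rw [HahnSeries.ofPowerSeries_apply_coeff, show (n : ℤ) * (m : ℤ) = ((n * m : ℕ) : ℤ) by
        push_cast; ring, HahnSeries.ofPowerSeries_apply_coeff, PowerSeries.coeff_expand_mul]
    · have hn : (0 : ℤ) < n := by exact_mod_cast Nat.pos_of_ne_zero (NeZero.ne n)
      rw [ofPowerSeries_coeff_of_neg _ hm, ofPowerSeries_coeff_of_neg _ (by nlinarith)]
  · rw [qExpand_coeff_of_not_dvd n _ hk]
    rcases le_or_gt 0 k with hk0 | hk0
    · lift k to ℕ using hk0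
      rw [HahnSeries.ofPowerSeries_apply_coeff, PowerSeries.coeff_expand_of_not_dvd]
      intro h
      exact hk (by exact_mod_cast h)
    · rw [ofPowerSeries_coeff_of_neg _ hk0]

end Basic

section CharL

variable {R : Type*} [CommRing R] (ℓ : ℕ) [Fact ℓ.Prime] [NeZero ℓ] [CharP R ℓ]

theorem powerSeries_map_frobenius_expand (p : PowerSeries R) :
    (p.expand ℓ (NeZero.ne ℓ)).map (frobenius R ℓ) = p ^ ℓ :=
  MvPowerSeries.map_frobenius_expand (σ := Unit) ℓ (NeZero.ne ℓ) (f := p)

/-- Frobenius on Laurent series in characteristic `ℓ`. -/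
theorem pow_char_eq_qExpand (f : LaurentSeries R) :
    f ^ ℓ = qExpand R ℓ (coeffMap (frobenius R ℓ) f) := by
  have hf := LaurentSeries.single_order_mul_powerSeriesPart f
  set p := f.powerSeriesPart with hp
  set n := f.order with hn
  have h1 : (HahnSeries.ofPowerSeries ℤ R p) ^ ℓ =
      qExpand R ℓ (coeffMap (frobenius R ℓ) (HahnSeries.ofPowerSeries ℤ R p)) := by
    rw [coeffMap_ofPowerSeries, qExpand_ofPowerSeries, ← map_pow,
      ← powerSeries_map_frobenius_expand ℓ p]
    congr 1
    ext m
    simp only [PowerSeries.coeff_map, PowerSeries.coeff_expand]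
    split_ifs <;> simp
  rw [← hf, mul_pow, h1, map_mul, map_mul, coeffMap_single, qExpand_single,
    HahnSeries.single_pow, map_one, one_pow]
  congr 2

/-- `j(q^ℓ) = j(q)^ℓ` in characteristic `ℓ`. -/
theorem qExpand_jqModC_char : qExpand R ℓ (jqModC R) = jqModC R ^ ℓ := by
  rw [pow_char_eq_qExpand ℓ, coeffMap_jqModC]

/-- `j(q^(ℓ d)) = j(q^d)^ℓ` in characteristic `ℓ`. -/
theorem qExpand_mul_jqModC_char (d : ℕ) [NeZero d] [NeZero (d * ℓ)] :
    qExpand R (d * ℓ) (jqModC R) = qExpand R d (jqModC R) ^ ℓ := by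
  rw [← qExpand_qExpand, qExpand_jqModC_char, map_pow]

/-- A series with coefficients fixed by Frobenius (e.g. the image of an integral series). -/
theorem qExpand_char_of_fixed {f : LaurentSeries R} (hf : coeffMap (frobenius R ℓ) f = f) :
    qExpand R ℓ f = f ^ ℓ := by
  rw [pow_char_eq_qExpand ℓ, hf]

end CharL

section Field

variable (k : Type*) [Field k] (ℓ : ℕ) [Fact ℓ.Prime] [NeZero ℓ] [CharP k ℓ]
variable (N : ℕ) [NeZero N]

/-- In characteristic `ℓ`, the field generated by the `j(q^d)`, `d ∣ N * ℓ`, is already generated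
by the `j(q^d)`, `d ∣ N`. -/
theorem modularFunctionFieldFullC_mul_char :
    modularFunctionFieldFullC k (N * ℓ) = modularFunctionFieldFullC k N := by
  apply le_antisymm
  · rw [modularFunctionFieldFullC, IntermediateField.adjoin_le_iff]
    rintro x ⟨d, hne, hdvd, rfl⟩
    have := hne
    have hℓ : ℓ.Prime := Fact.out
    by_cases hd : ℓ ∣ d
    · obtain ⟨d', rfl⟩ := hd
      have hd'0 : d' ≠ 0 := by
        rintro rfl
        exact (NeZero.ne (ℓ * 0)) (by simp)
      have : NeZero d' := ⟨hd'0⟩
      have hd'N : d' ∣ N := by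
        have h := hdvd
        rw [mul_comm N ℓ] at h
        exact (Nat.mul_dvd_mul_iff_left hℓ.pos).mp h
      have : NeZero (d' * ℓ) := ⟨Nat.mul_ne_zero hd'0 (NeZero.ne ℓ)⟩
      have h1 : qExpand k (ℓ * d') (jqModC k) = qExpand k d' (jqModC k) ^ ℓ := by
        rw [qExpand_congr (mul_comm ℓ d'), qExpand_mul_jqModC_char]
      show qExpand k (ℓ * d') (jqModC k) ∈ modularFunctionFieldFullC k N
      rw [h1]
      exact pow_mem (jqModCd_mem_full k N hd'N) ℓ
    · have hdN : d ∣ N := (Nat.Coprime.dvd_mul_right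
        ((Nat.Prime.coprime_iff_not_dvd hℓ).mpr hd).symm).mp hdvd
      exact jqModCd_mem_full k N hdN
  · exact full_degeneracyC_le k (dvd_mul_right N ℓ)

/-- In characteristic `ℓ`, `q ↦ q^ℓ` maps the level `N` field into itself. -/
theorem qExpand_mem_modularFunctionFieldFullC {x : LaurentSeries k}
    (hx : x ∈ modularFunctionFieldFullC k N) :
    qExpand k ℓ x ∈ modularFunctionFieldFullC k N := by
  rw [← modularFunctionFieldFullC_mul_char k ℓ N]
  exact full_degeneracyC_map_le k N ℓ ⟨x, hx, rfl⟩

/-- The `k`-linear Frobenius `q ↦ q^ℓ` of the level `N` field in characteristic `ℓ`. -/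
noncomputable def frobField :
    modularFunctionFieldFullC k N →ₐ[k] modularFunctionFieldFullC k N where
  toFun x := ⟨qExpand k ℓ (x : LaurentSeries k), qExpand_mem_modularFunctionFieldFullC k ℓ N x.2⟩
  map_one' := Subtype.ext (map_one (qExpand k ℓ))
  map_mul' _ _ := Subtype.ext (map_mul (qExpand k ℓ) _ _)
  map_zero' := Subtype.ext (map_zero (qExpand k ℓ))
  map_add' _ _ := Subtype.ext (map_add (qExpand k ℓ) _ _)
  commutes' a := Subtype.ext <| by
    show qExpand k ℓ (algebraMap k (LaurentSeries k) a) = algebraMap k (LaurentSeries k) a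
    rw [algebraMap_laurentSeries_eq_single, qExpand_single, mul_zero]

@[simp]
theorem coe_frobField (x : modularFunctionFieldFullC k N) :
    (frobField k ℓ N x : LaurentSeries k) = qExpand k ℓ (x : LaurentSeries k) := rfl

end Field

section Twist

variable {R : Type*} [CommRing R]

/-- The substitution `t ↦ u t` on Laurent series, for a unit `u`: the coefficient of `t^n` is
multiplied by `u^n`. -/
noncomputable def twist (u : Rˣ) (f : LaurentSeries R) : LaurentSeries R where
  coeff n := ((u ^ n : Rˣ) : R) * f.coeff n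
  isPWO_support' := f.isPWO_support.mono fun n hn => by
    simp only [Function.mem_support, ne_eq] at hn ⊢
    intro h
    exact hn (by rw [h, mul_zero])

@[simp]
theorem twist_coeff (u : Rˣ) (f : LaurentSeries R) (n : ℤ) :
    (twist u f).coeff n = ((u ^ n : Rˣ) : R) * f.coeff n := rfl

@[simp]
theorem twist_one (f : LaurentSeries R) : twist (1 : Rˣ) f = f := by
  ext n; simp

theorem twist_twist (u v : Rˣ) (f : LaurentSeries R) : twist u (twist v f) = twist (u * v) f := by
  ext n
  simp only [twist_coeff, mul_zpow, Units.val_mul]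
  ring

theorem support_twist (u : Rˣ) (f : LaurentSeries R) : (twist u f).support = f.support := by
  ext n
  simp only [HahnSeries.mem_support, twist_coeff, ne_eq]
  rw [Units.mul_right_eq_zero]

theorem twist_mul (u : Rˣ) (f g : LaurentSeries R) :
    twist u (f * g) = twist u f * twist u g := by
  ext a
  rw [twist_coeff, HahnSeries.coeff_mul,
    HahnSeries.coeff_mul_left' f.isPWO_support (support_twist u f).le,
    Finset.mul_sum]
  have hset : Finset.antidiagonal f.isPWO_support (twist u g).isPWO_support a =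
      Finset.antidiagonal f.isPWO_support g.isPWO_support a := by
    ext ij
    simp only [Finset.mem_antidiagonal, support_twist]
  rw [hset]
  refine Finset.sum_congr rfl fun ij hij => ?_
  have hsum : ij.1 + ij.2 = a := (Finset.mem_antidiagonal.mp hij).2.2
  rw [twist_coeff, twist_coeff, ← hsum, zpow_add, Units.val_mul]
  ring

theorem twist_add (u : Rˣ) (f g : LaurentSeries R) :
    twist u (f + g) = twist u f + twist u g := by
  ext a
  simp [mul_add]

/-- The twist `t ↦ u t` as a ring homomorphism. -/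
noncomputable def twistHom (u : Rˣ) : LaurentSeries R →+* LaurentSeries R where
  toFun := twist u
  map_one' := by
    ext n
    rw [twist_coeff, HahnSeries.coeff_one]
    split_ifs with h
    · subst h; simp
    · simp
  map_mul' := twist_mul u
  map_zero' := by ext n; simp
  map_add' := twist_add u

@[simp]
theorem twistHom_apply (u : Rˣ) (f : LaurentSeries R) : twistHom u f = twist u f := rfl

/-- On series in `t^n`, the twist by an `n`-th root of unity is trivial. -/
theorem twist_qExpand (n : ℕ) [NeZero n] (u : Rˣ) (hu : u ^ n = 1) (f : LaurentSeries R) :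
    twist u (qExpand R n f) = qExpand R n f := by
  ext k
  rw [twist_coeff]
  by_cases hk : (n : ℤ) ∣ k
  · obtain ⟨m, rfl⟩ := hk
    rw [zpow_mul, zpow_natCast, hu, one_zpow, Units.val_one, one_mul]
  · rw [qExpand_coeff_of_not_dvd n _ hk, mul_zero]

/-- A ring homomorphism sending `u` to `1` does not see the twist. -/
theorem coeffMap_twist {S : Type*} [CommRing S] (π : R →+* S) (u : Rˣ) (hu : π u = 1)
    (f : LaurentSeries R) : coeffMap π (twist u f) = coeffMap π f := by
  ext n
  have h1 : π ((u ^ n : Rˣ) : R) = 1 := by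
    have hu1 : Units.map (π : R →* S) u = 1 := Units.ext (by simpa using hu)
    have h2 : Units.map (π : R →* S) (u ^ n) = 1 := by rw [map_zpow, hu1, one_zpow]
    exact congrArg Units.val h2
  rw [coeffMap_coeff, coeffMap_coeff, twist_coeff, map_mul, h1, one_mul]

/-- The twist is compatible with coefficient maps. -/
theorem coeffMap_twist' {S : Type*} [CommRing S] (π : R →+* S) (u : Rˣ)
    (f : LaurentSeries R) :
    coeffMap π (twist u f) = twist (Units.map (π : R →* S) u) (coeffMap π f) := by
  ext n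
  rw [coeffMap_coeff, twist_coeff, twist_coeff, coeffMap_coeff, map_mul, ← map_zpow]
  rfl

/-- **Kronecker congruence** for arbitrary series: if `π ζ = 1` and the target has
characteristic `ℓ`, then `∏_{i<ℓ} y(ζ^i t)` reduces to `ỹ(t)^ℓ = ỹ^(ℓ)(t^ℓ)`. -/
theorem coeffMap_prod_twist {S : Type*} [CommRing S] (ℓ : ℕ) [Fact ℓ.Prime] [NeZero ℓ]
    [CharP S ℓ] (π : R →+* S) (ζ : Rˣ) (hζ : π ζ = 1) (y : LaurentSeries R) :
    coeffMap π (∏ i ∈ Finset.range ℓ, twist (ζ ^ i) y) =
      qExpand S ℓ (coeffMap (frobenius S ℓ) (coeffMap π y)) := by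
  rw [map_prod, ← pow_char_eq_qExpand ℓ]
  have h : ∀ i ∈ Finset.range ℓ, coeffMap π (twist (ζ ^ i) y) = coeffMap π y := by
    intro i _
    apply coeffMap_twist
    rw [Units.val_pow_eq_pow_val, map_pow, hζ, one_pow]
  rw [Finset.prod_congr rfl h, Finset.prod_const, Finset.card_range]

/-- **Reduction of the Hecke norm.** If `z` satisfies the norm formula
`z(t^ℓ) = y(t^(ℓ²)) ∏_{i<ℓ} y(ζ^i t)` over `R`, then modulo `π` (with `π ζ = 1`, target of
characteristic `ℓ`) one has `z̃ = ỹ(q^ℓ) · ỹ^(ℓ)(q)`. -/
theorem coeffMap_of_norm_formula {S : Type*} [CommRing S] (ℓ : ℕ) [Fact ℓ.Prime] [NeZero ℓ]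
    [NeZero (ℓ * ℓ)] [CharP S ℓ] (π : R →+* S) (ζ : Rˣ) (hζ : π ζ = 1) (y z : LaurentSeries R)
    (h : qExpand R ℓ z = qExpand R (ℓ * ℓ) y * ∏ i ∈ Finset.range ℓ, twist (ζ ^ i) y) :
    coeffMap π z =
      qExpand S ℓ (coeffMap π y) * coeffMap (frobenius S ℓ) (coeffMap π y) := by
  apply qExpand_injective (R := S) ℓ
  have h2 := congrArg (coeffMap π) h
  rw [map_mul, coeffMap_prod_twist ℓ π ζ hζ, coeffMap_qExpand, coeffMap_qExpand,
    ← qExpand_qExpand] at h2
  rw [h2, map_mul]

end Twist

end Fermat.Agent.GJ.J3.QS
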