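/-
GATE-J / J3 (helper36): Kronecker's congruence for NORMS of integral `q`-series.

For a Laurent series `f ∈ B((q))`, a unit `ζ ∈ Bˣ` which is a primitive `ℓ`-th root of unity, put
`normSeries ℓ ζ f (q) := ∏_{i<ℓ} f(ζ^i q^{1/ℓ}) ∈ B((q))` and
`heckeMul ℓ ζ f := f(q^ℓ) * normSeries ℓ ζ f` (the multiplicative Hecke operator on functions:
`f(ℓτ) ∏_i f((τ+i)/ℓ)`).  If `π : B → k` is a ring hom to a ring of characteristic `ℓ` with
`π ζ = 1`, then `π(normSeries ℓ ζ f) = Φ(π f)` (`Φ` = coefficientwise `ℓ`-power) and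
`π(heckeMul ℓ ζ f) = (π f)(q^ℓ) * Φ(π f)`; moreover `(Φ z)(q^ℓ) = z^ℓ`.
-/
import Mathlib
import Fermat.Prelude.Def_ModularCurve_X0
import Fermat.Prelude.Def_ModularCurve_LaurentCoeff
import Fermat.Prelude.Thm_ModularCurve_coeffMap_qExpand

set_option autoImplicit false

noncomputable section

open HahnSeries ModularCurve

namespace Fermat.Agent.GJ.J3

variable {B : Type*} [CommRing B]

/-! ### A flexible formula for the coefficients of a product -/

theorem coeff_mul_of_subset {x y : LaurentSeries B} {s t : Set ℤ} (hs : s.IsPWO) (ht : t.IsPWO)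
    (hxs : x.support ⊆ s) (hyt : y.support ⊆ t) (a : ℤ) :
    (x * y).coeff a = ∑ ij ∈ Finset.antidiagonal hs ht a, x.coeff ij.1 * y.coeff ij.2 := by
  rw [HahnSeries.coeff_mul_left' hs hxs]
  refine Finset.sum_subset (fun ij hij => ?_) (fun ij hij hnot => ?_)
  · rw [Finset.mem_antidiagonal] at hij ⊢
    exact ⟨hij.1, hyt hij.2.1, hij.2.2⟩
  · rw [Finset.mem_antidiagonal] at hij hnot
    have : y.coeff ij.2 = 0 := by
      by_contra h
      exact hnot ⟨hij.1, h, hij.2.2⟩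
    rw [this, mul_zero]

/-! ### The substitution `q ↦ c q` -/

/-- `f(q) ↦ f(c q)` for a unit `c`. -/
def twist (c : Bˣ) : LaurentSeries B →+* LaurentSeries B where
  toFun f := ⟨fun n => ((c ^ n : Bˣ) : B) * f.coeff n, f.isPWO_support.mono (by
    intro n hn
    rw [Function.mem_support] at hn
    exact fun h => hn (by rw [h, mul_zero]))⟩
  map_one' := by
    ext n
    simp only [HahnSeries.coeff_one]
    split_ifs with h
    · subst h; simp
    · simp
  map_zero' := by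
    ext n
    simp
  map_add' x y := by
    ext n
    simp [mul_add]
  map_mul' x y := by
    ext a
    have hx : (⟨fun n => ((c ^ n : Bˣ) : B) * x.coeff n, x.isPWO_support.mono (by
        intro n hn
        rw [Function.mem_support] at hn
        exact fun h => hn (by rw [h, mul_zero]))⟩ : LaurentSeries B).support ⊆ x.support := by
      intro n hn
      rw [HahnSeries.mem_support] at hn ⊢
      exact fun h => hn (by simp [h])
    have hy : (⟨fun n => ((c ^ n : Bˣ) : B) * y.coeff n, y.isPWO_support.mono (by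
        intro n hn
        rw [Function.mem_support] at hn
        exact fun h => hn (by rw [h, mul_zero]))⟩ : LaurentSeries B).support ⊆ y.support := by
      intro n hn
      rw [HahnSeries.mem_support] at hn ⊢
      exact fun h => hn (by simp [h])
    rw [coeff_mul_of_subset x.isPWO_support y.isPWO_support hx hy]
    show ((c ^ a : Bˣ) : B) * (x * y).coeff a = _
    rw [HahnSeries.coeff_mul, Finset.mul_sum]
    refine Finset.sum_congr rfl fun ij hij => ?_
    have hsum : ij.1 + ij.2 = a := (Finset.mem_antidiagonal.1 hij).2.2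
    show _ = (((c ^ ij.1 : Bˣ) : B) * x.coeff ij.1) * (((c ^ ij.2 : Bˣ) : B) * y.coeff ij.2)
    rw [← hsum, zpow_add, Units.val_mul]
    ring

@[simp]
theorem twist_coeff (c : Bˣ) (f : LaurentSeries B) (n : ℤ) :
    (twist c f).coeff n = ((c ^ n : Bˣ) : B) * f.coeff n :=
  rfl

@[simp]
theorem twist_one (f : LaurentSeries B) : twist (1 : Bˣ) f = f := by
  ext n
  simp

theorem twist_twist (c d : Bˣ) (f : LaurentSeries B) : twist c (twist d f) = twist (c * d) f := by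
  ext n
  simp only [twist_coeff, mul_zpow, Units.val_mul]
  ring

theorem twist_qExpand (ℓ : ℕ) [NeZero ℓ] (c : Bˣ) (g : LaurentSeries B) :
    twist c (qExpand B ℓ g) = qExpand B ℓ (twist (c ^ ℓ) g) := by
  ext n
  by_cases hn : (ℓ : ℤ) ∣ n
  · obtain ⟨m, rfl⟩ := hn
    rw [twist_coeff, qExpand_coeff_mul, qExpand_coeff_mul, twist_coeff, ← zpow_natCast, ← zpow_mul]
  · rw [twist_coeff, qExpand_coeff_of_not_dvd ℓ _ hn, qExpand_coeff_of_not_dvd ℓ _ hn, mul_zero]

theorem coeffMap_twist {k : Type*} [CommRing k] (π : B →+* k) (c : Bˣ) (f : LaurentSeries B) :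
    coeffMap π (twist c f) = twist (Units.map (π : B →* k) c) (coeffMap π f) := by
  ext n
  simp only [coeffMap_coeff, twist_coeff, map_mul]
  congr 1
  rw [← map_zpow]
  rfl

/-! ### Contraction `h(q) ↦ ∑ h_{ℓ n} q^n` -/

theorem bddBelow_support_contract (ℓ : ℕ) [NeZero ℓ] (h : LaurentSeries B) :
    BddBelow (Function.support fun n : ℤ => h.coeff ((ℓ : ℤ) * n)) := by
  refine ⟨min h.order 0, fun n hn => ?_⟩
  rw [Function.mem_support] at hn
  by_contra hlt
  rw [not_le] at hlt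
  apply hn
  apply HahnSeries.coeff_eq_zero_of_lt_order
  have hℓ : (1 : ℤ) ≤ (ℓ : ℤ) := by exact_mod_cast Nat.pos_of_ne_zero (NeZero.ne ℓ)
  have hn0 : n < 0 := lt_of_lt_of_le hlt (min_le_right _ _)
  have hno : n < h.order := lt_of_lt_of_le hlt (min_le_left _ _)
  nlinarith

/-- `(contract ℓ h)(q) = ∑ h_{ℓ n} q^n`. -/
def contract (ℓ : ℕ) [NeZero ℓ] (h : LaurentSeries B) : LaurentSeries B :=
  HahnSeries.ofSuppBddBelow (fun n : ℤ => h.coeff ((ℓ : ℤ) * n)) (bddBelow_support_contract ℓ h)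

@[simp]
theorem contract_coeff (ℓ : ℕ) [NeZero ℓ] (h : LaurentSeries B) (n : ℤ) :
    (contract ℓ h).coeff n = h.coeff ((ℓ : ℤ) * n) :=
  rfl

@[simp]
theorem contract_qExpand (ℓ : ℕ) [NeZero ℓ] (g : LaurentSeries B) :
    contract ℓ (qExpand B ℓ g) = g := by
  ext n
  rw [contract_coeff, qExpand_coeff_mul]

theorem qExpand_contract (ℓ : ℕ) [NeZero ℓ] (h : LaurentSeries B)
    (hh : ∀ n : ℤ, ¬ (ℓ : ℤ) ∣ n → h.coeff n = 0) : qExpand B ℓ (contract ℓ h) = h := by
  ext n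
  by_cases hn : (ℓ : ℤ) ∣ n
  · obtain ⟨m, rfl⟩ := hn
    rw [qExpand_coeff_mul, contract_coeff]
  · rw [qExpand_coeff_of_not_dvd ℓ _ hn, hh n hn]

theorem coeffMap_contract {k : Type*} [CommRing k] (π : B →+* k) (ℓ : ℕ) [NeZero ℓ]
    (h : LaurentSeries B) : coeffMap π (contract ℓ h) = contract ℓ (coeffMap π h) := by
  ext n
  simp

/-- Series supported on `ℓ ℤ`. -/
def SupportedOn (ℓ : ℕ) (h : LaurentSeries B) : Prop :=
  ∀ n : ℤ, ¬ (ℓ : ℤ) ∣ n → h.coeff n = 0

theorem contract_mul (ℓ : ℕ) [NeZero ℓ] {h₁ h₂ : LaurentSeries B} (H₁ : SupportedOn ℓ h₁)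
    (H₂ : SupportedOn ℓ h₂) : contract ℓ (h₁ * h₂) = contract ℓ h₁ * contract ℓ h₂ := by
  conv_lhs => rw [← qExpand_contract ℓ h₁ H₁, ← qExpand_contract ℓ h₂ H₂, ← map_mul]
  rw [contract_qExpand]

theorem supportedOn_mul (ℓ : ℕ) [NeZero ℓ] {h₁ h₂ : LaurentSeries B} (H₁ : SupportedOn ℓ h₁)
    (H₂ : SupportedOn ℓ h₂) : SupportedOn ℓ (h₁ * h₂) := by
  intro n hn
  rw [← qExpand_contract ℓ h₁ H₁, ← qExpand_contract ℓ h₂ H₂, ← map_mul]
  exact qExpand_coeff_of_not_dvd ℓ _ hn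


/-! ### Frobenius on Laurent series in characteristic `ℓ` -/

section Frobenius

variable {k : Type*} [CommRing k] (ℓ : ℕ) [hℓ : Fact ℓ.Prime] [CharP k ℓ]

/-- `NeZero ℓ` for a prime `ℓ` (local instance). -/
local instance neZero_of_fact_prime : NeZero ℓ := ⟨hℓ.out.ne_zero⟩

/-- Coefficientwise `ℓ`-th power on `k((q))`, `char k = ℓ`. -/
def frobCoeff : LaurentSeries k →+* LaurentSeries k := coeffMap (frobenius k ℓ)

@[simp]
theorem frobCoeff_coeff (z : LaurentSeries k) (n : ℤ) : (frobCoeff ℓ z).coeff n = z.coeff n ^ ℓ :=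
  rfl

omit [CharP k ℓ] in
theorem ofPowerSeries_expand (g : PowerSeries k) :
    HahnSeries.ofPowerSeries ℤ k (g.expand ℓ hℓ.out.ne_zero)
      = qExpand k ℓ (HahnSeries.ofPowerSeries ℤ k g) := by
  ext n
  by_cases hn : (ℓ : ℤ) ∣ n
  · obtain ⟨m, rfl⟩ := hn
    rw [qExpand_coeff_mul]
    rcases lt_or_ge m 0 with hm | hm
    · have hneg : (ℓ : ℤ) * m < 0 := by
        have : (0 : ℤ) < ℓ := by exact_mod_cast hℓ.out.pos
        nlinarith
      rw [ofPowerSeries_coeff_of_neg _ hneg, ofPowerSeries_coeff_of_neg _ hm]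
    · lift m to ℕ using hm
      rw [show ((ℓ : ℤ) * (m : ℤ)) = ((ℓ * m : ℕ) : ℤ) by push_cast; ring,
        HahnSeries.ofPowerSeries_apply_coeff, HahnSeries.ofPowerSeries_apply_coeff,
        PowerSeries.coeff_expand_mul]
  · rw [qExpand_coeff_of_not_dvd ℓ _ hn]
    rcases lt_or_ge n 0 with hm | hm
    · rw [ofPowerSeries_coeff_of_neg _ hm]
    · lift n to ℕ using hm
      rw [HahnSeries.ofPowerSeries_apply_coeff, PowerSeries.coeff_expand_of_not_dvd]
      exact fun h => hn (by exact_mod_cast h)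

theorem powerSeries_pow_char (g : PowerSeries k) :
    g ^ ℓ = (g.map (frobenius k ℓ)).expand ℓ hℓ.out.ne_zero := by
  have h := MvPowerSeries.map_frobenius_expand ℓ hℓ.out.ne_zero (R := k) (σ := Unit) (f := g)
  rw [← h]
  exact (PowerSeries.map_expand ℓ hℓ.out.ne_zero (frobenius k ℓ) g)

omit hℓ [CharP k ℓ] in
theorem coeffMap_ofPowerSeries_aux {R S : Type*} [CommRing R] [CommRing S] (f : R →+* S)
    (g : PowerSeries R) :
    coeffMap f (HahnSeries.ofPowerSeries ℤ R g) = HahnSeries.ofPowerSeries ℤ S (g.map f) := by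
  ext n
  rw [coeffMap_coeff]
  rcases le_or_gt 0 n with hn | hn
  · lift n to ℕ using hn
    rw [HahnSeries.ofPowerSeries_apply_coeff, HahnSeries.ofPowerSeries_apply_coeff,
      PowerSeries.coeff_map]
  · rw [ofPowerSeries_coeff_of_neg _ hn, ofPowerSeries_coeff_of_neg _ hn, map_zero]

/-- **Frobenius**: `z^ℓ = (Φ z)(q^ℓ)` in `k((q))`, `char k = ℓ`. -/
theorem pow_char_eq_qExpand_frobCoeff (z : LaurentSeries k) :
    z ^ ℓ = qExpand k ℓ (frobCoeff ℓ z) := by
  have h1 : (HahnSeries.single z.order (1 : k) : LaurentSeries k) ^ ℓ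
      = qExpand k ℓ (frobCoeff ℓ (HahnSeries.single z.order (1 : k))) := by
    rw [HahnSeries.single_pow, one_pow, frobCoeff, coeffMap_single, qExpand_single,
      map_one (frobenius k ℓ), nsmul_eq_mul]
  have h2 : (HahnSeries.ofPowerSeries ℤ k z.powerSeriesPart) ^ ℓ
      = qExpand k ℓ (frobCoeff ℓ (HahnSeries.ofPowerSeries ℤ k z.powerSeriesPart)) := by
    rw [← map_pow, powerSeries_pow_char ℓ, ofPowerSeries_expand, frobCoeff,
      coeffMap_ofPowerSeries_aux]
  conv_lhs => rw [← LaurentSeries.single_order_mul_powerSeriesPart z]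
  conv_rhs => rw [← LaurentSeries.single_order_mul_powerSeriesPart z]
  rw [mul_pow, map_mul, map_mul, h1, h2]

end Frobenius


/-! ### The norm series `∏_{i<ℓ} f(ζ^i q^{1/ℓ})` and the multiplicative Hecke operator -/

section Norm

variable (ℓ : ℕ) [NeZero ℓ]

/-- `∏_{i<ℓ} f(ζ^i t)` as a series in `t`. -/
def twistProd (ζ : Bˣ) (f : LaurentSeries B) : LaurentSeries B :=
  ∏ i ∈ Finset.range ℓ, twist (ζ ^ i) f

omit [NeZero ℓ] in
theorem twistProd_one (ζ : Bˣ) : twistProd ℓ ζ (1 : LaurentSeries B) = 1 := by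
  simp [twistProd]

omit [NeZero ℓ] in
theorem twistProd_mul (ζ : Bˣ) (f g : LaurentSeries B) :
    twistProd ℓ ζ (f * g) = twistProd ℓ ζ f * twistProd ℓ ζ g := by
  simp only [twistProd, map_mul, Finset.prod_mul_distrib]

theorem twist_twistProd (ζ : Bˣ) (hζ : ζ ^ ℓ = 1) (f : LaurentSeries B) :
    twist ζ (twistProd ℓ ζ f) = twistProd ℓ ζ f := by
  obtain ⟨n, hn⟩ : ∃ n, ℓ = n + 1 := Nat.exists_eq_succ_of_ne_zero (NeZero.ne ℓ)
  have key : ∀ i : ℕ, twist ζ (twist (ζ ^ i) f) = twist (ζ ^ (i + 1)) f := fun i => by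
    rw [twist_twist, ← pow_succ']
  rw [twistProd, map_prod]
  simp_rw [key]
  rw [hn, Finset.prod_range_succ, Finset.prod_range_succ' (fun i => twist (ζ ^ i) f) n, ← hn, hζ,
    pow_zero]

/-- The product `∏_i f(ζ^i t)` is a series in `t^ℓ`. -/
theorem supportedOn_twistProd [IsDomain B] (ζ : Bˣ) (hζ : IsPrimitiveRoot ζ ℓ)
    (f : LaurentSeries B) : SupportedOn ℓ (twistProd ℓ ζ f) := by
  intro n hn
  have h := congrArg (fun x : LaurentSeries B => x.coeff n) (twist_twistProd ℓ ζ hζ.pow_eq_one f)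
  simp only [twist_coeff] at h
  have hne : ((ζ ^ n : Bˣ) : B) ≠ 1 := by
    intro h1
    apply hn
    rw [← hζ.zpow_eq_one_iff_dvd]
    exact Units.ext h1
  have h2 : (((ζ ^ n : Bˣ) : B) - 1) * (twistProd ℓ ζ f).coeff n = 0 := by
    rw [sub_mul, one_mul, h, sub_self]
  rcases mul_eq_zero.1 h2 with h3 | h3
  · exact absurd (sub_eq_zero.1 h3) hne
  · exact h3

/-- `normSeries ℓ ζ f (q) = ∏_{i<ℓ} f(ζ^i q^{1/ℓ})`. -/
def normSeries (ζ : Bˣ) (f : LaurentSeries B) : LaurentSeries B :=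
  contract ℓ (twistProd ℓ ζ f)

theorem qExpand_normSeries [IsDomain B] (ζ : Bˣ) (hζ : IsPrimitiveRoot ζ ℓ) (f : LaurentSeries B) :
    qExpand B ℓ (normSeries ℓ ζ f) = twistProd ℓ ζ f :=
  qExpand_contract ℓ _ (supportedOn_twistProd ℓ ζ hζ f)

theorem normSeries_one (ζ : Bˣ) : normSeries ℓ ζ (1 : LaurentSeries B) = 1 := by
  rw [normSeries, twistProd_one]
  conv_lhs => rw [← map_one (qExpand B ℓ)]
  rw [contract_qExpand]

theorem normSeries_mul [IsDomain B] (ζ : Bˣ) (hζ : IsPrimitiveRoot ζ ℓ) (f g : LaurentSeries B) :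
    normSeries ℓ ζ (f * g) = normSeries ℓ ζ f * normSeries ℓ ζ g := by
  rw [normSeries, twistProd_mul, contract_mul ℓ (supportedOn_twistProd ℓ ζ hζ f)
    (supportedOn_twistProd ℓ ζ hζ g)]
  rfl

/-- The multiplicative Hecke operator `f(q^ℓ) ∏_{i<ℓ} f(ζ^i q^{1/ℓ})`
(`= f(ℓτ) ∏_i f((τ+i)/ℓ)`). -/
def heckeMul (ζ : Bˣ) (f : LaurentSeries B) : LaurentSeries B :=
  qExpand B ℓ f * normSeries ℓ ζ f

theorem heckeMul_one (ζ : Bˣ) : heckeMul ℓ ζ (1 : LaurentSeries B) = 1 := by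
  rw [heckeMul, normSeries_one, map_one, one_mul]

theorem heckeMul_mul [IsDomain B] (ζ : Bˣ) (hζ : IsPrimitiveRoot ζ ℓ) (f g : LaurentSeries B) :
    heckeMul ℓ ζ (f * g) = heckeMul ℓ ζ f * heckeMul ℓ ζ g := by
  rw [heckeMul, heckeMul, heckeMul, normSeries_mul ℓ ζ hζ, map_mul]
  ring

omit [NeZero ℓ] in
/-- Ring homomorphisms on coefficients commute with the norm series. -/
theorem coeffMap_twistProd {k : Type*} [CommRing k] (π : B →+* k) (ζ : Bˣ) (f : LaurentSeries B) :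
    coeffMap π (twistProd ℓ ζ f) = twistProd ℓ (Units.map (π : B →* k) ζ) (coeffMap π f) := by
  simp only [twistProd, map_prod, coeffMap_twist, map_pow]

theorem coeffMap_normSeries {k : Type*} [CommRing k] (π : B →+* k) (ζ : Bˣ) (f : LaurentSeries B) :
    coeffMap π (normSeries ℓ ζ f) = normSeries ℓ (Units.map (π : B →* k) ζ) (coeffMap π f) := by
  rw [normSeries, coeffMap_contract, coeffMap_twistProd]
  rfl

theorem coeffMap_heckeMul {k : Type*} [CommRing k] (π : B →+* k) (ζ : Bˣ) (f : LaurentSeries B) :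
    coeffMap π (heckeMul ℓ ζ f) = heckeMul ℓ (Units.map (π : B →* k) ζ) (coeffMap π f) := by
  rw [heckeMul, map_mul, coeffMap_normSeries, coeffMap_qExpand]
  rfl

omit [NeZero ℓ] in
theorem twistProd_one_unit (f : LaurentSeries B) : twistProd ℓ (1 : Bˣ) f = f ^ ℓ := by
  simp [twistProd]

/-- For a primitive root `ζ` the product runs over all `ℓ`-th roots of unity. -/
theorem twistProd_eq_prod_rootsOfUnity [IsDomain B] [Fintype (rootsOfUnity ℓ B)] (ζ : Bˣ)
    (hζ : IsPrimitiveRoot ζ ℓ) (f : LaurentSeries B) :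
    twistProd ℓ ζ f = ∏ ξ : rootsOfUnity ℓ B, twist (ξ : Bˣ) f := by
  rw [twistProd]
  refine Finset.prod_bij (fun i _ => (⟨ζ ^ i, by
      rw [mem_rootsOfUnity, ← pow_mul, mul_comm, pow_mul, hζ.pow_eq_one, one_pow]⟩ :
      rootsOfUnity ℓ B)) (fun _ _ => Finset.mem_univ _) ?_ ?_ (fun _ _ => rfl)
  · intro i hi j hj hij
    exact hζ.pow_inj (Finset.mem_range.1 hi) (Finset.mem_range.1 hj) (congrArg Subtype.val hij)
  · intro ξ _
    obtain ⟨i, hi, hiξ⟩ := hζ.eq_pow_of_mem_rootsOfUnity ξ.2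
    exact ⟨i, Finset.mem_range.2 hi, Subtype.ext hiξ⟩

/-- The norm series does not depend on the choice of the primitive root. -/
theorem normSeries_eq_of_isPrimitiveRoot [IsDomain B] {ζ ζ' : Bˣ} (hζ : IsPrimitiveRoot ζ ℓ)
    (hζ' : IsPrimitiveRoot ζ' ℓ) (f : LaurentSeries B) :
    normSeries ℓ ζ f = normSeries ℓ ζ' f := by
  haveI : Fintype (rootsOfUnity ℓ B) := Fintype.ofFinite _
  rw [normSeries, normSeries, twistProd_eq_prod_rootsOfUnity ℓ ζ hζ,
    twistProd_eq_prod_rootsOfUnity ℓ ζ' hζ']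

theorem heckeMul_eq_of_isPrimitiveRoot [IsDomain B] {ζ ζ' : Bˣ} (hζ : IsPrimitiveRoot ζ ℓ)
    (hζ' : IsPrimitiveRoot ζ' ℓ) (f : LaurentSeries B) :
    heckeMul ℓ ζ f = heckeMul ℓ ζ' f := by
  rw [heckeMul, heckeMul, normSeries_eq_of_isPrimitiveRoot ℓ hζ hζ']

/-- Galois equivariance: an injective ring endomorphism `σ` of a domain `B` (e.g. an
automorphism) commutes with the norm series and the multiplicative Hecke operator. -/
theorem coeffMap_normSeries_self [IsDomain B] (σ : B →+* B) (hσ : Function.Injective σ) (ζ : Bˣ)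
    (hζ : IsPrimitiveRoot ζ ℓ) (f : LaurentSeries B) :
    coeffMap σ (normSeries ℓ ζ f) = normSeries ℓ ζ (coeffMap σ f) := by
  rw [coeffMap_normSeries]
  refine normSeries_eq_of_isPrimitiveRoot ℓ ?_ hζ _
  have h1 : IsPrimitiveRoot ((ζ : B)) ℓ := IsPrimitiveRoot.coe_units_iff.2 hζ
  have h2 : IsPrimitiveRoot (σ (ζ : B)) ℓ := h1.map_of_injective hσ
  exact IsPrimitiveRoot.coe_units_iff.1 h2

theorem coeffMap_heckeMul_self [IsDomain B] (σ : B →+* B) (hσ : Function.Injective σ) (ζ : Bˣ)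
    (hζ : IsPrimitiveRoot ζ ℓ) (f : LaurentSeries B) :
    coeffMap σ (heckeMul ℓ ζ f) = heckeMul ℓ ζ (coeffMap σ f) := by
  rw [heckeMul, heckeMul, map_mul, coeffMap_normSeries_self ℓ σ hσ ζ hζ, coeffMap_qExpand]

end Norm

/-! ### Kronecker's congruence -/

section Kronecker

variable {k : Type*} [CommRing k] (ℓ : ℕ) [hℓ : Fact ℓ.Prime] [CharP k ℓ]

/-- In characteristic `ℓ` the norm series for the trivial root of unity is the coefficientwise
Frobenius. -/
theorem normSeries_one_unit_eq_frobCoeff (z : LaurentSeries k) :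
    haveI : NeZero ℓ := ⟨hℓ.out.ne_zero⟩
    normSeries ℓ (1 : kˣ) z = frobCoeff ℓ z := by
  haveI : NeZero ℓ := ⟨hℓ.out.ne_zero⟩
  rw [normSeries, twistProd_one_unit, pow_char_eq_qExpand_frobCoeff ℓ z, contract_qExpand]

/-- **Kronecker's congruence for norms.** If `π : B → k`, `char k = ℓ`, kills `ζ - 1`, then
`π(∏_{i<ℓ} f(ζ^i q^{1/ℓ})) = Φ(π f)`. -/
theorem coeffMap_normSeries_eq_frobCoeff (π : B →+* k) (ζ : Bˣ) (hπζ : π (ζ : B) = 1)
    (f : LaurentSeries B) :
    haveI : NeZero ℓ := ⟨hℓ.out.ne_zero⟩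
    coeffMap π (normSeries ℓ ζ f) = frobCoeff ℓ (coeffMap π f) := by
  haveI : NeZero ℓ := ⟨hℓ.out.ne_zero⟩
  have h1 : Units.map (π : B →* k) ζ = 1 := Units.ext hπζ
  rw [coeffMap_normSeries, h1, normSeries_one_unit_eq_frobCoeff]

/-- **Kronecker's congruence for the multiplicative Hecke operator**:
`π(T f) = (π f)(q^ℓ) · Φ(π f)`. -/
theorem coeffMap_heckeMul_eq (π : B →+* k) (ζ : Bˣ) (hπζ : π (ζ : B) = 1)
    (f : LaurentSeries B) :
    haveI : NeZero ℓ := ⟨hℓ.out.ne_zero⟩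
    coeffMap π (heckeMul ℓ ζ f) = qExpand k ℓ (coeffMap π f) * frobCoeff ℓ (coeffMap π f) := by
  haveI : NeZero ℓ := ⟨hℓ.out.ne_zero⟩
  rw [heckeMul, map_mul, coeffMap_normSeries_eq_frobCoeff ℓ π ζ hπζ, coeffMap_qExpand]

/-- In a reduced ring of characteristic `ℓ` every `ℓ`-th root of unity is `1`. -/
theorem eq_one_of_pow_char_eq_one [IsReduced k] {x : k} (hx : x ^ ℓ = 1) : x = 1 := by
  have h : (x - 1) ^ ℓ = 0 := by rw [sub_pow_char, hx, one_pow, sub_self]
  exact sub_eq_zero.1 (IsReduced.eq_zero _ ⟨ℓ, h⟩)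

/-- The Eichler–Shimura cancellation on the residue side: with `Φ` = coefficientwise Frobenius
and `V` = `qExpand ℓ`, for every `z`:  `Φ²(z) · z^ℓ = V(Φ z) · Φ(Φ z)`; so the reduction of
`σ²(u) · u^ℓ / T(σ u)` is `1` when `red(σ a) = Φ(red a)`. -/
theorem frob_frob_mul_pow_eq (z : LaurentSeries k) :
    haveI : NeZero ℓ := ⟨hℓ.out.ne_zero⟩
    frobCoeff ℓ (frobCoeff ℓ z) * z ^ ℓ
      = qExpand k ℓ (frobCoeff ℓ z) * frobCoeff ℓ (frobCoeff ℓ z) := by
  haveI : NeZero ℓ := ⟨hℓ.out.ne_zero⟩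
  rw [pow_char_eq_qExpand_frobCoeff ℓ z, mul_comm]

end Kronecker

end Fermat.Agent.GJ.J3
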